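import Mathlib

/-!
# The roots of `(n - 1) X^n - n X^(n-1) + T` near `T = 0` and near `T = 1`

In `ℂ⟦s⟧` the trinomial has `n` roots at `T = n s^(n-1)` and at `T = 1 + s²`; rescaling `s`
cycles `n - 1` of them in the first case and swaps two of them in the second.
-/

namespace Fermat.Agent.InverseSymmetric

open Polynomial
open scoped Polynomial PowerSeries

/-- `(n - 1) X^n - n X^(n-1)`. -/
noncomputable def baseTrinomial (n : ℕ) : ℚ[X] :=
  C ((n : ℚ) - 1) * X ^ n - C (n : ℚ) * X ^ (n - 1)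

/-- The trinomial at the parameter `t`. -/
noncomputable def paramTrinomial {A : Type*} [CommRing A] [Algebra ℚ A] (n : ℕ) (t : A) : A[X] :=
  (baseTrinomial n).map (algebraMap ℚ A) + C t

lemma baseTrinomial_natDegree {n : ℕ} (hn : 2 ≤ n) : (baseTrinomial n).natDegree = n := by
  have hn' : ((n : ℚ) - 1) ≠ 0 := by
    have : (2 : ℚ) ≤ n := mod_cast hn
    linarith
  rw [baseTrinomial, natDegree_sub_eq_left_of_natDegree_lt, natDegree_C_mul_X_pow n _ hn']
  rw [natDegree_C_mul_X_pow n _ hn']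
  exact lt_of_le_of_lt (natDegree_C_mul_X_pow_le _ _) (by omega)


lemma baseTrinomial_derivative {n : ℕ} (hn : 2 ≤ n) :
    derivative (baseTrinomial n)
      = C ((n : ℚ) * ((n : ℚ) - 1)) * X ^ (n - 2) * (X - 1) := by
  obtain ⟨m, rfl⟩ := Nat.exists_eq_add_of_le hn
  simp only [baseTrinomial, derivative_sub, derivative_C_mul_X_pow,
    show 2 + m - 1 = m + 1 by omega, show 2 + m - 2 = m by omega, Nat.add_sub_cancel]
  push_cast
  rw [map_mul, map_mul, map_mul]
  simp only [map_add, map_sub, map_one, map_ofNat, map_natCast]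
  ring

lemma natDegree_paramTrinomial {A : Type*} [CommRing A] [Nontrivial A] [Algebra ℚ A] {n : ℕ}
    (hn : 2 ≤ n) (t : A) : (paramTrinomial n t).natDegree = n := by
  have h : ((baseTrinomial n).map (algebraMap ℚ A)).natDegree = n := by
    rw [natDegree_map_eq_of_injective (algebraMap ℚ A).injective, baseTrinomial_natDegree hn]
  rw [paramTrinomial, natDegree_add_eq_left_of_natDegree_lt, h]
  rw [natDegree_C, h]
  omega

lemma map_paramTrinomial {A B : Type*} [CommRing A] [CommRing B] [Algebra ℚ A] [Algebra ℚ B]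
    (ψ : A →+* B) (n : ℕ) (t : A) :
    (paramTrinomial n t).map ψ = paramTrinomial n (ψ t) := by
  rw [paramTrinomial, Polynomial.map_add, map_C, Polynomial.map_map,
    Subsingleton.elim (ψ.comp (algebraMap ℚ A)) (algebraMap ℚ B), paramTrinomial]

/-- Hensel's lemma in `ℂ⟦s⟧` for polynomials which need not be monic. -/
lemma exists_root_powerSeries (f : ℂ⟦X⟧[X]) (a₀ : ℂ)
    (h0 : (f.map PowerSeries.constantCoeff).eval a₀ = 0)
    (h1 : (derivative (f.map PowerSeries.constantCoeff)).eval a₀ ≠ 0) :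
    ∃ r : ℂ⟦X⟧, f.eval r = 0 ∧ PowerSeries.constantCoeff r = a₀ := by
  set b : ℂ⟦X⟧ := PowerSeries.C a₀ with hb
  set g := taylor b f with hg
  set m := max f.natDegree 2 with hm
  set ε := g.coeff 0
  set d := g.coeff 1
  have hεI : PowerSeries.constantCoeff ε = 0 := by
    rw [show ε = f.eval b from taylor_coeff_zero b f, ← eval₂_at_apply, ← eval_map, hb,
      PowerSeries.constantCoeff_C]
    exact h0
  have hd : PowerSeries.constantCoeff d ≠ 0 := by
    rw [show d = f.derivative.eval b from taylor_coeff_one b f, ← eval₂_at_apply, ← eval_map,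
      ← derivative_map, hb, PowerSeries.constantCoeff_C]
    exact h1
  -- the auxiliary monic polynomial in `w = ε / (r - a₀)`
  set F : ℂ⟦X⟧[X] := X ^ m + C d * X ^ (m - 1) +
    ∑ i ∈ Finset.Ico 2 (m + 1), C (g.coeff i * ε ^ (i - 1)) * X ^ (m - i) with hF
  have hFm : F.Monic := by
    refine Monic.add_of_left (Monic.add_of_left (monic_X_pow m) ?_) ?_
    · rw [degree_X_pow]
      exact (degree_C_mul_X_pow_le _ _).trans_lt (mod_cast by omega)
    · rw [degree_add_eq_left_of_degree_lt, degree_X_pow]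
      · refine (degree_sum_le _ _).trans_lt ((Finset.sup_lt_iff (WithBot.bot_lt_coe m)).2
          fun i hi => (degree_C_mul_X_pow_le _ _).trans_lt ?_)
        rw [Finset.mem_Ico] at hi
        exact WithBot.coe_lt_coe.2 (by omega : m - i < m)
      · rw [degree_X_pow]
        exact (degree_C_mul_X_pow_le _ _).trans_lt (mod_cast by omega)
  have hFmap : F.map PowerSeries.constantCoeff
      = X ^ (m - 1) * (X + C (PowerSeries.constantCoeff d)) := by
    rw [hF, Polynomial.map_add, Polynomial.map_sum, Finset.sum_eq_zero fun i hi => ?_, add_zero]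
    · obtain ⟨k, hk⟩ : ∃ k, m = k + 1 := ⟨m - 1, by omega⟩
      simp [hk, pow_succ]
      ring
    · rw [Finset.mem_Ico] at hi
      simp [hεI, show i - 1 ≠ 0 by omega]
  obtain ⟨w, hw, hw'⟩ := HenselianRing.is_henselian (I := Ideal.span {(PowerSeries.X : ℂ⟦X⟧)}) F hFm
    (-d)
    (by
      rw [Ideal.mem_span_singleton, PowerSeries.X_dvd_iff, ← eval₂_at_apply, ← eval_map, hFmap]
      simp)
    (by
      refine IsUnit.map _ (PowerSeries.isUnit_iff_constantCoeff.2 (isUnit_iff_ne_zero.2 ?_))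
      rw [← eval₂_at_apply, ← eval_map, ← derivative_map, hFmap]
      simp [derivative_mul, hd])
  rw [Ideal.mem_span_singleton, PowerSeries.X_dvd_iff, map_sub, map_neg, sub_eq_zero] at hw'
  have hwu : IsUnit w :=
    PowerSeries.isUnit_iff_constantCoeff.2 (isUnit_iff_ne_zero.2 (hw' ▸ neg_ne_zero.2 hd))
  obtain ⟨u, rfl⟩ := hwu
  set v : ℂ⟦X⟧ := ↑u⁻¹
  refine ⟨b + ε * v, ?_, by rw [map_add, map_mul, hεI, zero_mul, add_zero, hb,
    PowerSeries.constantCoeff_C]⟩
  have hgdeg : g.natDegree < m + 1 := by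
    rw [hg, natDegree_taylor]
    omega
  rw [add_comm, ← taylor_eval, ← hg, eval_eq_sum_range' hgdeg,
    Finset.range_eq_Ico, Finset.sum_eq_sum_Ico_succ_bot (by omega),
    Finset.sum_eq_sum_Ico_succ_bot (by omega)]
  have hroot := hw.eq_zero
  simp only [hF, eval_add, eval_finsetSum, eval_mul, eval_C, eval_pow, eval_X] at hroot
  have key : ∀ i, i ≤ m → (↑u : ℂ⟦X⟧) ^ (m - i) * v ^ m = v ^ i := fun i hi => by
    calc (↑u : ℂ⟦X⟧) ^ (m - i) * v ^ m = (↑u * v) ^ (m - i) * v ^ i := by
          rw [mul_pow, mul_assoc, ← pow_add, Nat.sub_add_cancel hi]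
      _ = v ^ i := by simp [v]
  have h2 := congrArg (fun x => x * v ^ m * ε) hroot
  simp only [zero_mul, add_mul, Finset.sum_mul] at h2
  refine Eq.trans ?_ h2
  rw [add_assoc ((↑u : ℂ⟦X⟧) ^ m * v ^ m * ε)]
  congr 1
  · have := key 0 (Nat.zero_le m)
    rw [Nat.sub_zero, pow_zero] at this
    rw [this, pow_zero, mul_one, one_mul]
  congr 1
  · rw [mul_assoc d, key 1 (by omega), zero_add, pow_one, pow_one]
    ring
  · refine Finset.sum_congr rfl fun i hi => ?_
    rw [Finset.mem_Ico] at hi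
    rw [mul_assoc (g.coeff i * ε ^ (i - 1)), key i (by omega), mul_pow,
      show ε ^ i = ε ^ (i - 1) * ε by rw [← pow_succ, Nat.sub_add_cancel (by omega)]]
    ring

lemma eval_rescale_paramTrinomial {n : ℕ} {t r : ℂ⟦X⟧} {c : ℂ}
    (ht : PowerSeries.rescale c t = t) (hr : (paramTrinomial n t).eval r = 0) :
    (paramTrinomial n t).eval (PowerSeries.rescale c r) = 0 := by
  conv_lhs => rw [← ht, ← map_paramTrinomial, eval_map, eval₂_at_apply]
  rw [hr, map_zero]

lemma mem_of_card_roots {A : Type*} [CommRing A] [IsDomain A] [DecidableEq A] {p : A[X]}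
    {R : Finset A} (hp : p ≠ 0) (hcard : R.card = p.natDegree) (hR : ∀ r ∈ R, p.eval r = 0)
    {x : A} (hx : p.eval x = 0) : x ∈ R := by
  by_contra hxR
  have h := card_le_degree_of_subset_roots (p := p) (Z := insert x R) fun r hr => by
    rw [Finset.mem_val, Finset.mem_insert] at hr
    exact (mem_roots hp).2 (hr.elim (· ▸ hx) (hR r))
  rw [Finset.card_insert_of_notMem hxR] at h
  omega

lemma baseTrinomial_complex {n : ℕ} :
    (baseTrinomial n).map (algebraMap ℚ ℂ)
      = C ((n : ℂ) - 1) * X ^ n - C (n : ℂ) * X ^ (n - 1) := by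
  simp [baseTrinomial]

/-- Near `T = 0`: `n - 1` roots cycled by `s ↦ ζ s`, one fixed. -/
theorem exists_cycle_roots {n : ℕ} (hn : 2 ≤ n) :
    ∃ ζ : ℂ, ζ ≠ 0 ∧ PowerSeries.rescale ζ ((n : ℂ⟦X⟧) * PowerSeries.X ^ (n - 1))
        = (n : ℂ⟦X⟧) * PowerSeries.X ^ (n - 1) ∧
      ∃ R : Finset ℂ⟦X⟧, R.card = n ∧
        (∀ r ∈ R, (paramTrinomial n ((n : ℂ⟦X⟧) * PowerSeries.X ^ (n - 1))).eval r = 0) ∧
        ∃ a ∈ R, PowerSeries.rescale ζ a = a ∧
          ∀ b ∈ R, b ≠ a → ∀ c ∈ R, c ≠ a → ∃ k : ℕ, (PowerSeries.rescale ζ)^[k] b = c := by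
  classical
  obtain ⟨m, rfl⟩ : ∃ m, n = m + 2 := ⟨n - 2, by omega⟩
  simp only [show m + 2 - 1 = m + 1 from rfl]
  set ζ := Complex.exp (2 * Real.pi * Complex.I / (m + 1 : ℕ))
  have hζ : IsPrimitiveRoot ζ (m + 1) := Complex.isPrimitiveRoot_exp _ (Nat.succ_ne_zero m)
  set t : ℂ⟦X⟧ := ((m + 2 : ℕ) : ℂ⟦X⟧) * PowerSeries.X ^ (m + 1) with ht
  have htfix : PowerSeries.rescale ζ t = t := by
    rw [ht, map_mul, map_natCast, map_pow, PowerSeries.rescale_X, mul_pow, ← map_pow,
      hζ.pow_eq_one, map_one, one_mul]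
  refine ⟨ζ, hζ.ne_zero (Nat.succ_ne_zero m), htfix, ?_⟩
  set P := paramTrinomial (m + 2) t with hP
  have hPdeg : P.natDegree = m + 2 := natDegree_paramTrinomial hn t
  have hP0 : P ≠ 0 := fun h => by rw [h, natDegree_zero] at hPdeg; omega
  -- the simple root
  set a₀ : ℂ := (m + 2) / (m + 1) with ha₀
  have hm1 : (m : ℂ) + 1 ≠ 0 := mod_cast Nat.succ_ne_zero m
  have hm2 : (m : ℂ) + 2 ≠ 0 := mod_cast Nat.succ_ne_zero (m + 1)
  have hPmap : P.map PowerSeries.constantCoeff
      = C ((m : ℂ) + 1) * X ^ (m + 2) - C ((m : ℂ) + 2) * X ^ (m + 1) := by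
    have e1 : ((m + 2 : ℕ) : ℂ) - 1 = (m : ℂ) + 1 := by push_cast; ring
    have e2 : ((m + 2 : ℕ) : ℂ) = (m : ℂ) + 2 := by push_cast; ring
    have e3 : PowerSeries.constantCoeff t = 0 := by simp [t]
    rw [hP, map_paramTrinomial, paramTrinomial, baseTrinomial_complex, e3, C_0, add_zero, e1, e2]
    rfl
  obtain ⟨a, ha, ha'⟩ := exists_root_powerSeries P a₀
    (by
      have e : ((m : ℂ) + 1) * a₀ = m + 2 := by rw [ha₀]; field_simp
      rw [hPmap]
      simp only [eval_sub, eval_mul, eval_C, eval_pow, eval_X]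
      linear_combination a₀ ^ (m + 1) * e)
    (by
      rw [hPmap, derivative_sub, derivative_C_mul_X_pow, derivative_C_mul_X_pow, ha₀]
      simp only [eval_sub, eval_mul, eval_C, eval_pow, eval_X, Nat.add_sub_cancel,
        show m + 2 - 1 = m + 1 from rfl]
      push_cast
      rw [pow_succ', show ((m : ℂ) + 1) * (m + 2) * (((m : ℂ) + 2) / (m + 1) *
        (((m : ℂ) + 2) / (m + 1)) ^ m) - (m + 2) * (m + 1) * (((m : ℂ) + 2) / (m + 1)) ^ m
        = ((m : ℂ) + 2) * (((m : ℂ) + 2) / (m + 1)) ^ m by field_simp; ring]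
      exact mul_ne_zero hm2 (pow_ne_zero _ (div_ne_zero hm2 hm1)))
  -- the root `s y`
  set G : ℂ⟦X⟧[X] := C (((m + 1 : ℕ) : ℂ⟦X⟧) * PowerSeries.X) * X ^ (m + 2)
    - C ((m + 2 : ℕ) : ℂ⟦X⟧) * X ^ (m + 1) + C ((m + 2 : ℕ) : ℂ⟦X⟧) with hG
  have hGmap : G.map PowerSeries.constantCoeff
      = -(C ((m : ℂ) + 2) * X ^ (m + 1)) + C ((m : ℂ) + 2) := by
    rw [show (m : ℂ) + 2 = ((m + 2 : ℕ) : ℂ) by push_cast; ring]
    simp only [hG, Polynomial.map_add, Polynomial.map_sub, Polynomial.map_mul, map_C,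
      Polynomial.map_pow, map_X, map_mul, map_natCast, PowerSeries.constantCoeff_X, C_0, mul_zero,
      zero_mul, zero_sub, Polynomial.map_natCast]
  obtain ⟨y, hy, hy'⟩ := exists_root_powerSeries G 1 (by rw [hGmap]; simp) (by
    rw [hGmap, derivative_add, derivative_neg, derivative_C_mul_X_pow, derivative_C]
    simp only [eval_neg, eval_mul, eval_C, eval_pow, eval_X, one_pow, mul_one, add_zero,
      Nat.cast_add, Nat.cast_one]
    exact neg_ne_zero.2 (mul_ne_zero hm2 hm1))
  set r₀ := PowerSeries.X * y with hr₀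
  have hr : P.eval r₀ = 0 := by
    have h := congrArg (PowerSeries.X ^ (m + 1) * ·) hy
    simp only [hG, eval_add, eval_sub, eval_mul, eval_C, eval_pow, eval_X, mul_zero] at h
    rw [hP, paramTrinomial, eval_add, eval_map, ← aeval_def, baseTrinomial, eval_C]
    simp only [map_sub, map_mul, map_pow, aeval_X, map_natCast, map_one, hr₀, t,
      show m + 2 - 1 = m + 1 from rfl]
    rw [← h]
    push_cast
    ring
  have hiter : ∀ k, (PowerSeries.rescale ζ)^[k] r₀ = PowerSeries.rescale (ζ ^ k) r₀ := by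
    intro k
    induction k with
    | zero => simp
    | succ k ih => rw [Function.iterate_succ_apply', ih, PowerSeries.rescale_rescale, pow_succ]
  have hroots : ∀ k, P.eval ((PowerSeries.rescale ζ)^[k] r₀) = 0 := by
    intro k
    induction k with
    | zero => exact hr
    | succ k ih =>
      rw [Function.iterate_succ_apply']
      exact eval_rescale_paramTrinomial htfix ih
  have hc1 : ∀ k, PowerSeries.coeff 1 ((PowerSeries.rescale ζ)^[k] r₀) = ζ ^ k := fun k => by
    rw [hiter, PowerSeries.coeff_rescale, hr₀, pow_one, PowerSeries.coeff_succ_X_mul,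
      PowerSeries.coeff_zero_eq_constantCoeff_apply, hy', mul_one]
  have hc0 : ∀ k, PowerSeries.constantCoeff ((PowerSeries.rescale ζ)^[k] r₀) = 0 := fun k => by
    rw [hiter, ← PowerSeries.coeff_zero_eq_constantCoeff_apply, PowerSeries.coeff_rescale,
      PowerSeries.coeff_zero_eq_constantCoeff_apply, hr₀]
    simp
  set R := insert a ((Finset.range (m + 1)).image fun k => (PowerSeries.rescale ζ)^[k] r₀)
  have ha0 : a₀ ≠ 0 := div_ne_zero hm2 hm1
  have hanot : a ∉ (Finset.range (m + 1)).image fun k => (PowerSeries.rescale ζ)^[k] r₀ := by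
    intro h
    obtain ⟨k, -, hk⟩ := Finset.mem_image.1 h
    exact ha0 (by rw [← ha', ← hk, hc0])
  have hcard : R.card = m + 2 := by
    rw [Finset.card_insert_of_notMem hanot, Finset.card_image_of_injOn, Finset.card_range]
    intro i hi j hj hij
    have h := congrArg (PowerSeries.coeff 1) hij
    rw [hc1, hc1] at h
    exact hζ.pow_inj (Finset.mem_range.1 hi) (Finset.mem_range.1 hj) h
  have hRroot : ∀ r ∈ R, P.eval r = 0 := by
    intro r hr'
    rcases Finset.mem_insert.1 hr' with rfl | h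
    · exact ha
    · obtain ⟨k, -, rfl⟩ := Finset.mem_image.1 h
      exact hroots k
  refine ⟨R, hcard, hRroot, a, Finset.mem_insert_self _ _, ?_, fun b hb hba c hc hca => ?_⟩
  · have h := mem_of_card_roots hP0 (hcard.trans hPdeg.symm) hRroot
      (eval_rescale_paramTrinomial htfix ha)
    refine (Finset.mem_insert.1 h).resolve_right fun h' => ?_
    obtain ⟨k, -, hk⟩ := Finset.mem_image.1 h'
    have h0 := congrArg PowerSeries.constantCoeff hk
    rw [hc0, ← PowerSeries.coeff_zero_eq_constantCoeff_apply (PowerSeries.rescale ζ a),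
      PowerSeries.coeff_rescale, pow_zero, one_mul,
      PowerSeries.coeff_zero_eq_constantCoeff_apply, ha'] at h0
    exact ha0 h0.symm
  · obtain ⟨i, hi, rfl⟩ := Finset.mem_image.1 ((Finset.mem_insert.1 hb).resolve_left hba)
    obtain ⟨j, hj, rfl⟩ := Finset.mem_image.1 ((Finset.mem_insert.1 hc).resolve_left hca)
    refine ⟨j + (m + 1) - i, ?_⟩
    rw [← Function.iterate_add_apply, hiter, hiter,
      show j + (m + 1) - i + i = j + (m + 1) by have := Finset.mem_range.1 hi; omega, pow_add,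
      hζ.pow_eq_one, mul_one]

/-- Near `T = 1`: two roots swapped by `s ↦ -s`, the others fixed. -/
theorem exists_swap_roots {n : ℕ} (hn : 2 ≤ n) :
    ∃ R : Finset ℂ⟦X⟧, R.card = n ∧
      (∀ r ∈ R, (paramTrinomial n (1 + PowerSeries.X ^ 2 : ℂ⟦X⟧)).eval r = 0) ∧
      ∃ u ∈ R, ∃ v ∈ R, u ≠ v ∧ PowerSeries.rescale (-1) u = v ∧
        PowerSeries.rescale (-1) v = u ∧
        ∀ b ∈ R, b ≠ u → b ≠ v → PowerSeries.rescale (-1) b = b := by
  classical
  set t : ℂ⟦X⟧ := 1 + PowerSeries.X ^ 2 with ht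
  have htfix : PowerSeries.rescale (-1) t = t := by
    rw [ht, map_add, map_one, map_pow, PowerSeries.rescale_X]
    simp
  set P := paramTrinomial n t with hP
  have hPdeg : P.natDegree = n := natDegree_paramTrinomial hn t
  have hP0 : P ≠ 0 := fun h => by rw [h, natDegree_zero] at hPdeg; omega
  set p : ℂ[X] := (baseTrinomial n).map (algebraMap ℚ ℂ) + C 1 with hpdef
  have hpdeg : p.natDegree = n := natDegree_paramTrinomial hn (1 : ℂ)
  have hp0 : p ≠ 0 := fun h => by rw [h, natDegree_zero] at hpdeg; omega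
  have hpder : derivative p = C ((n : ℂ) * ((n : ℂ) - 1)) * X ^ (n - 2) * (X - 1) := by
    rw [hpdef, derivative_add, derivative_C, add_zero, derivative_map, baseTrinomial_derivative hn]
    simp
  have hnn : (n : ℂ) * ((n : ℂ) - 1) ≠ 0 := by
    refine mul_ne_zero (Nat.cast_ne_zero.2 (by omega)) (sub_ne_zero.2 ?_)
    exact_mod_cast (show n ≠ 1 by omega)
  have hp1 : p.eval 1 = 0 := by rw [hpdef, baseTrinomial_complex]; simp
  have hmul : 2 ≤ p.rootMultiplicity 1 :=
    (one_lt_rootMultiplicity_iff_isRoot hp0).2 ⟨hp1, by simp [IsRoot, hpder]⟩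
  obtain ⟨W, hW⟩ := (le_rootMultiplicity_iff hp0).1 hmul
  have hW0 : W ≠ 0 := fun h => hp0 (by rw [hW, h, mul_zero])
  have hWdeg : W.natDegree + 2 = n := by
    rw [← hpdeg, hW, natDegree_mul (pow_ne_zero 2 (X_sub_C_ne_zero (1 : ℂ))) hW0, natDegree_pow,
      natDegree_X_sub_C]
    ring
  have hW1 : W.eval 1 ≠ 0 := by
    intro h
    have h2 := congrArg (fun q : ℂ[X] => (derivative (derivative q)).eval 1) hW
    simp only [hpder, derivative_mul, derivative_add, derivative_sub, derivative_one, derivative_X,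
      derivative_pow,
      derivative_C, eval_add, eval_mul, eval_sub, eval_pow, eval_X, eval_C, eval_one, sub_self,
      sub_zero, mul_zero, zero_mul, zero_add, mul_one, add_zero, h, Nat.cast_ofNat,
      show (2 : ℕ) - 1 = 1 from rfl, pow_one, zero_pow two_ne_zero, one_pow] at h2
    exact hnn h2
  have hsimple : ∀ β, p.eval β = 0 → β ≠ 1 → (derivative p).eval β ≠ 0 := by
    intro β hβ hβ1 h
    rw [hpder] at h
    simp only [eval_mul, eval_C, eval_pow, eval_X, eval_sub, eval_one, mul_eq_zero, hnn,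
      sub_eq_zero, hβ1, or_false, false_or] at h
    have hβ0 : β = 0 := eq_zero_of_pow_eq_zero h
    subst hβ0
    rw [hpdef, baseTrinomial_complex] at hβ
    simp [zero_pow (show n ≠ 0 by omega), zero_pow (show n - 1 ≠ 0 by omega)] at hβ
  have hWroot : ∀ β ∈ W.roots, p.eval β = 0 ∧ β ≠ 1 := fun β hβ => by
    have h : W.eval β = 0 := (mem_roots hW0).1 hβ
    exact ⟨by rw [hW, eval_mul, h, mul_zero], fun h1 => hW1 (h1 ▸ h)⟩
  have hWnodup : W.roots.Nodup := by
    refine Multiset.nodup_iff_count_le_one.2 fun β => ?_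
    by_contra hlt
    have hβ : β ∈ W.roots := Multiset.count_pos.1 (lt_trans zero_lt_one (not_le.1 hlt))
    obtain ⟨h1, h2⟩ := hWroot β hβ
    rw [count_roots] at hlt
    obtain ⟨h3, h4⟩ := (one_lt_rootMultiplicity_iff_isRoot hW0).1 (not_le.1 hlt)
    apply hsimple β h1 h2
    rw [hW, derivative_mul, eval_add, eval_mul, eval_mul, h3.eq_zero, h4.eq_zero, mul_zero,
      mul_zero, add_zero]
  have hWcard : W.roots.toFinset.card + 2 = n := by
    rw [Multiset.toFinset_card_of_nodup hWnodup,
      ← (IsAlgClosed.splits W).natDegree_eq_card_roots, hWdeg]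
  -- the roots other than `1`
  have hother : ∀ β ∈ W.roots.toFinset, ∃ r : ℂ⟦X⟧,
      P.eval r = 0 ∧ PowerSeries.constantCoeff r = β := by
    intro β hβ
    obtain ⟨h1, h2⟩ := hWroot β (Multiset.mem_toFinset.1 hβ)
    have hmap : P.map PowerSeries.constantCoeff = p := by
      rw [hP, map_paramTrinomial, paramTrinomial, hpdef, ht]
      simp
    exact exists_root_powerSeries P β (hmap ▸ h1) (hmap ▸ hsimple β h1 h2)
  choose lift hlift0 hlift using hother
  -- the pair
  obtain ⟨y₀, hy₀⟩ := IsAlgClosed.exists_pow_nat_eq (-(W.eval 1)⁻¹) two_pos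
  set G : ℂ⟦X⟧[X] := X ^ 2 * (W.map PowerSeries.C).comp (1 + C PowerSeries.X * X) + 1 with hG
  have hGmap : G.map PowerSeries.constantCoeff = X ^ 2 * C (W.eval 1) + 1 := by
    have h1 : (1 + C PowerSeries.X * X : ℂ⟦X⟧[X]).map PowerSeries.constantCoeff = C 1 := by simp
    rw [hG, Polynomial.map_add, Polynomial.map_mul, Polynomial.map_comp, Polynomial.map_map, h1,
      show RingHom.comp PowerSeries.constantCoeff PowerSeries.C = RingHom.id ℂ from
        RingHom.ext PowerSeries.constantCoeff_C, Polynomial.map_id, comp_C, Polynomial.map_pow,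
      map_X, Polynomial.map_one]
  obtain ⟨y, hy, hy'⟩ := exists_root_powerSeries G y₀
    (by rw [hGmap]; simp [hy₀, hW1])
    (by
      rw [hGmap]
      simp only [derivative_add, derivative_mul, derivative_X_pow, derivative_C, derivative_one,
        mul_zero, add_zero, eval_mul, eval_C, eval_X, Nat.cast_ofNat,
        show (2 : ℕ) - 1 = 1 from rfl, pow_one]
      refine mul_ne_zero (mul_ne_zero two_ne_zero fun h => ?_) hW1
      rw [h, zero_pow two_ne_zero] at hy₀
      exact inv_ne_zero hW1 (neg_eq_zero.1 hy₀.symm))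
  have hy0ne : y₀ ≠ 0 := fun h => by
    rw [h, zero_pow two_ne_zero] at hy₀
    exact inv_ne_zero hW1 (neg_eq_zero.1 hy₀.symm)
  set u := 1 + PowerSeries.X * y with hu
  have hu0 : P.eval u = 0 := by
    have hid : (baseTrinomial n).map (algebraMap ℚ ℂ⟦X⟧) + C 1
        = (X - 1) ^ 2 * W.map PowerSeries.C := by
      have h := congrArg (Polynomial.map PowerSeries.C) hW
      rw [hpdef, Polynomial.map_add, Polynomial.map_map, map_C, map_one,
        Subsingleton.elim (RingHom.comp PowerSeries.C (algebraMap ℚ ℂ)) (algebraMap ℚ ℂ⟦X⟧)] at h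
      simpa using h
    have h1 := congrArg (eval u) hid
    simp only [hP, paramTrinomial, ht, eval_add, eval_C, eval_mul, eval_pow, eval_sub, eval_X,
      eval_one] at h1 ⊢
    simp only [hG, eval_add, eval_mul, eval_pow, eval_X, eval_one, eval_comp, eval_C, ← hu] at hy
    have hu1 : u - 1 = PowerSeries.X * y := by rw [hu]; ring
    rw [hu1] at h1
    linear_combination h1 + PowerSeries.X ^ 2 * hy
  set v := PowerSeries.rescale (-1 : ℂ) u with hv
  have hv0 : P.eval v = 0 := eval_rescale_paramTrinomial htfix hu0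
  have hu1c : PowerSeries.coeff 1 u = y₀ := by
    rw [hu, map_add, PowerSeries.coeff_one, if_neg one_ne_zero, zero_add,
      PowerSeries.coeff_succ_X_mul, PowerSeries.coeff_zero_eq_constantCoeff_apply, hy']
  have huc : PowerSeries.constantCoeff u = 1 := by rw [hu]; simp
  have hvc : PowerSeries.constantCoeff v = 1 := by
    rw [hv, ← PowerSeries.coeff_zero_eq_constantCoeff_apply, PowerSeries.coeff_rescale, pow_zero,
      one_mul, PowerSeries.coeff_zero_eq_constantCoeff_apply, huc]
  have huv : u ≠ v := by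
    intro h
    have h' := congrArg (PowerSeries.coeff 1) h
    rw [hv, PowerSeries.coeff_rescale, hu1c, pow_one] at h'
    exact hy0ne (by linear_combination h' / 2)
  set O := W.roots.toFinset.attach.image fun β => lift β.1 β.2
  have hOc : ∀ r ∈ O, PowerSeries.constantCoeff r ≠ 1 := by
    intro r hr
    obtain ⟨β, -, rfl⟩ := Finset.mem_image.1 hr
    rw [hlift]
    exact (hWroot _ (Multiset.mem_toFinset.1 β.2)).2
  have huO : u ∉ insert v O := by
    rw [Finset.mem_insert, not_or]
    exact ⟨huv, fun h => hOc u h huc⟩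
  have hvO : v ∉ O := fun h => hOc v h hvc
  have hcard : (insert u (insert v O)).card = n := by
    rw [Finset.card_insert_of_notMem huO, Finset.card_insert_of_notMem hvO,
      Finset.card_image_of_injective, Finset.card_attach, hWcard]
    intro β γ h
    have := congrArg PowerSeries.constantCoeff h
    rw [hlift, hlift] at this
    exact Subtype.ext this
  have hroot : ∀ r ∈ insert u (insert v O), P.eval r = 0 := by
    intro r hr
    simp only [Finset.mem_insert, O, Finset.mem_image] at hr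
    rcases hr with rfl | rfl | ⟨β, -, rfl⟩
    exacts [hu0, hv0, hlift0 _ _]
  refine ⟨_, hcard, hroot, u, Finset.mem_insert_self _ _, v,
    Finset.mem_insert_of_mem (Finset.mem_insert_self _ _), huv, rfl, ?_, ?_⟩
  · rw [hv, PowerSeries.rescale_rescale]
    simp
  · intro b hb hbu hbv
    have hbO : b ∈ O := by simpa [hbu, hbv] using hb
    have hmem := mem_of_card_roots hP0 (hcard.trans hPdeg.symm) hroot
      (eval_rescale_paramTrinomial htfix (hroot b hb))
    have hc : PowerSeries.constantCoeff (PowerSeries.rescale (-1) b)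
        = PowerSeries.constantCoeff b := by
      rw [← PowerSeries.coeff_zero_eq_constantCoeff_apply, PowerSeries.coeff_rescale, pow_zero,
        one_mul, PowerSeries.coeff_zero_eq_constantCoeff_apply]
    rcases Finset.mem_insert.1 hmem with h | h
    · exact absurd (by rw [← hc, h, huc]) (hOc b hbO)
    rcases Finset.mem_insert.1 h with h | h
    · exact absurd (by rw [← hc, h, hvc]) (hOc b hbO)
    obtain ⟨β, -, hβ⟩ := Finset.mem_image.1 h
    obtain ⟨γ, -, hγ⟩ := Finset.mem_image.1 hbO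
    have hβγ : β = γ := Subtype.ext (by rw [← hlift β.1 β.2, ← hlift γ.1 γ.2, hβ, hγ, hc])
    rw [← hβ, ← hγ, hβγ]

end Fermat.Agent.InverseSymmetric
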