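import Mathlib
import Fermat.Agent.Hilbertian.Galois
import Fermat.Agent.InverseSymmetric.LocalRoots

/-!
# The symmetric group as a Galois group over `ℚ(T)` and over `ℚ`

The trinomial `(n - 1) X^n - n X^(n-1) + T` has Galois group `Sₙ` over `ℚ(T)`, hence over `ℚ`
at almost every integer value of `T`.
-/

namespace Fermat.Agent.InverseSymmetric

open Polynomial
open scoped Polynomial PowerSeries
open Fermat.Agent.Hilbertian (specialise DensityZero)

/-- `(n - 1) X^n - n X^(n-1) + T` in `ℚ[T][X]`. -/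
noncomputable def trinomial (n : ℕ) : ℚ[X][X] := paramTrinomial n (X : ℚ[X])

/-- The same polynomial over `ℚ(T)`. -/
noncomputable def trinomialK (n : ℕ) : (RatFunc ℚ)[X] := paramTrinomial n RatFunc.X

lemma map_trinomial (n : ℕ) :
    (trinomial n).map (algebraMap ℚ[X] (RatFunc ℚ)) = trinomialK n := by
  rw [trinomial, map_paramTrinomial, RatFunc.algebraMap_X, trinomialK]

lemma specialise_trinomial (n : ℕ) (t : ℚ) :
    specialise (trinomial n) t = paramTrinomial n t := by
  rw [specialise, trinomial, map_paramTrinomial, coe_evalRingHom, eval_X]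

lemma irreducible_trinomial {n : ℕ} : Irreducible (trinomial n) := by
  refine (MulEquiv.irreducible_iff
    (Bivariate.swap (R := ℚ) : ℚ[X][X] ≃* ℚ[X][X])).1 ?_
  have h : Bivariate.swap (trinomial n) = X - C (-baseTrinomial n) := by
    rw [trinomial, paramTrinomial, map_add, Polynomial.algebraMap_eq, Bivariate.swap_map_C,
      Bivariate.swap_X, map_neg, sub_neg_eq_add, add_comm]
  exact h ▸ irreducible_X_sub_C _

lemma irreducible_trinomialK {n : ℕ} (hn : 2 ≤ n) : Irreducible (trinomialK n) := by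
  have hd : (trinomial n).natDegree ≠ 0 := by
    rw [trinomial, natDegree_paramTrinomial hn]
    omega
  rw [← map_trinomial]
  exact (irreducible_trinomial.isPrimitive hd).irreducible_iff_irreducible_map_fraction_map.1
    irreducible_trinomial

lemma separable_trinomialK {n : ℕ} (hn : 2 ≤ n) : (trinomialK n).Separable :=
  (irreducible_trinomialK hn).separable

lemma natDegree_trinomialK {n : ℕ} (hn : 2 ≤ n) : (trinomialK n).natDegree = n :=
  natDegree_paramTrinomial hn _

lemma aeval_powerSeries_injective {t : ℂ⟦X⟧} (ht : ∀ c : ℂ, t ≠ PowerSeries.C c) :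
    Function.Injective (aeval t : ℚ[X] →ₐ[ℚ] ℂ⟦X⟧) := by
  rw [injective_iff_map_eq_zero]
  intro p hp
  by_contra hp0
  set q := p.map (algebraMap ℚ ℂ)
  have hq0 : q ≠ 0 := (Polynomial.map_ne_zero_iff (algebraMap ℚ ℂ).injective).2 hp0
  have h : (q.map PowerSeries.C).eval t = 0 := by
    rw [Polynomial.map_map, eval_map,
      Subsingleton.elim (RingHom.comp PowerSeries.C (algebraMap ℚ ℂ)) (algebraMap ℚ ℂ⟦X⟧)]
    exact hp
  rw [(IsAlgClosed.splits q).eq_prod_roots, Polynomial.map_mul, map_C, eval_mul, eval_C,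
    Polynomial.map_multiset_prod, eval_multiset_prod, mul_eq_zero] at h
  rcases h with h | h
  · exact hq0 (leadingCoeff_eq_zero.1 (PowerSeries.C_injective (h.trans (map_zero _).symm)))
  · rw [Multiset.prod_eq_zero_iff] at h
    simp only [Multiset.map_map, Multiset.mem_map, Function.comp_apply, Polynomial.map_sub,
      map_X, map_C, eval_sub, eval_X, eval_C, sub_eq_zero] at h
    obtain ⟨c, -, hc⟩ := h
    exact ht c hc

/-- The automorphisms of the splitting field of the trinomial over `ℚ(T)`. -/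
abbrev AutL (n : ℕ) :=
  (trinomialK n).SplittingField ≃ₐ[RatFunc ℚ] (trinomialK n).SplittingField

/-- A ring automorphism of `ℂ⟦s⟧` fixing a transcendental parameter `t` acts on the roots of
the trinomial at `t` through an element of the Galois group over `ℚ(T)`. -/
theorem exists_gal_of_powerSeries {n : ℕ} (hn : 2 ≤ n) {t : ℂ⟦X⟧}
    (ht : ∀ c : ℂ, t ≠ PowerSeries.C c) {c : ℂ} (hc : c ≠ 0)
    (hct : PowerSeries.rescale c t = t) (R : Finset ℂ⟦X⟧) (hR : R.card = n)
    (hroot : ∀ r ∈ R, (paramTrinomial n t).eval r = 0) :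
    ∃ (σ : AutL n) (e : (trinomialK n).SplittingField → ℂ⟦X⟧),
      Set.BijOn e ((trinomialK n).rootSet (trinomialK n).SplittingField) ↑R ∧
      ∀ x ∈ (trinomialK n).rootSet (trinomialK n).SplittingField,
        e (σ x) = PowerSeries.rescale c (e x) := by
  classical
  set p := trinomialK n with hp
  let L := p.SplittingField
  let Ω := FractionRing ℂ⟦X⟧
  set iA := algebraMap ℂ⟦X⟧ Ω
  have hiA : Function.Injective iA := IsFractionRing.injective _ _
  let g : ℚ[X] →+* Ω := iA.comp (aeval t : ℚ[X] →ₐ[ℚ] ℂ⟦X⟧).toRingHom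
  have hg : Function.Injective g := hiA.comp (aeval_powerSeries_injective ht)
  let ι : RatFunc ℚ →+* Ω := IsFractionRing.lift hg
  have hιX : ι RatFunc.X = iA t := by
    rw [← RatFunc.algebraMap_X, IsFractionRing.lift_algebraMap]
    simp [g]
  have hθinj : Function.Injective (PowerSeries.rescale c) := fun a b h => by
    have := congrArg (PowerSeries.rescale c⁻¹) h
    rwa [PowerSeries.rescale_rescale, PowerSeries.rescale_rescale, mul_inv_cancel₀ hc,
      PowerSeries.rescale_one, RingHom.id_apply, RingHom.id_apply] at this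
  let θ : Ω →+* Ω := IsFractionRing.lift
    (show Function.Injective (iA.comp (PowerSeries.rescale c)) from hiA.comp hθinj)
  have hθ : ∀ r, θ (iA r) = iA (PowerSeries.rescale c r) := fun r =>
    IsFractionRing.lift_algebraMap _ r
  have hθι : θ.comp ι = ι := by
    refine IsLocalization.ringHom_ext (nonZeroDivisors ℚ[X])
      (Polynomial.ringHom_ext (fun a => ?_) ?_)
    · exact RingHom.congr_fun (Subsingleton.elim
        (((θ.comp ι).comp (algebraMap ℚ[X] (RatFunc ℚ))).comp C)
        ((ι.comp (algebraMap ℚ[X] (RatFunc ℚ))).comp C)) a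
    · rw [RingHom.comp_apply, RingHom.comp_apply, RingHom.comp_apply, RatFunc.algebraMap_X, hιX,
        hθ, hct]
  let _ : Algebra (RatFunc ℚ) Ω := ι.toAlgebra
  have hpΩ : p.map (algebraMap (RatFunc ℚ) Ω) = (paramTrinomial n t).map iA := by
    rw [hp, trinomialK, map_paramTrinomial, map_paramTrinomial]
    exact congrArg _ hιX
  have hroots : (p.map (algebraMap (RatFunc ℚ) Ω)).roots = (R.image iA).val := by
    have h0 : p.map (algebraMap (RatFunc ℚ) Ω) ≠ 0 :=
      (Polynomial.map_ne_zero_iff (algebraMap (RatFunc ℚ) Ω).injective).2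
        (irreducible_trinomialK hn).ne_zero
    refine (Multiset.eq_of_le_of_card_le ((Multiset.le_iff_subset (Finset.nodup _)).2 ?_) ?_).symm
    · intro r hr
      obtain ⟨r₀, hr₀, rfl⟩ := Finset.mem_image.1 (show r ∈ R.image iA from hr)
      refine (mem_roots h0).2 ?_
      rw [IsRoot, hpΩ, eval_map, eval₂_at_apply, hroot r₀ hr₀, map_zero]
    · refine (card_roots' _).trans ?_
      rw [natDegree_map, hp, natDegree_trinomialK hn, Finset.card_val,
        Finset.card_image_of_injective _ hiA, hR]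
  have hsplit : (p.map (algebraMap (RatFunc ℚ) Ω)).Splits := by
    rw [splits_iff_card_roots, hroots, natDegree_map, hp, natDegree_trinomialK hn, Finset.card_val,
      Finset.card_image_of_injective _ hiA, hR]
  let j : L →ₐ[RatFunc ℚ] Ω := IsSplittingField.lift L p hsplit
  let _ : Algebra L Ω := j.toRingHom.toAlgebra
  have : IsScalarTower (RatFunc ℚ) L Ω :=
    IsScalarTower.of_algebraMap_eq fun a => (j.commutes a).symm
  have : Normal (RatFunc ℚ) L := Normal.of_isSplittingField p
  let θK : Ω →ₐ[RatFunc ℚ] Ω := { θ with commutes' := fun a => RingHom.congr_fun hθι a }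
  have hj : ∀ x ∈ p.rootSet L, ∃ r ∈ R, iA r = j x := by
    intro x hx
    have hmem : j x ∈ p.rootSet Ω := p.rootSet_mapsTo j hx
    rw [rootSet_def, Finset.mem_coe, Multiset.mem_toFinset, aroots_def, hroots, Finset.mem_val,
      Finset.mem_image] at hmem
    exact hmem
  let e : L → ℂ⟦X⟧ := fun x => Function.invFun iA (j x)
  have he : ∀ x ∈ p.rootSet L, e x ∈ R ∧ iA (e x) = j x := by
    intro x hx
    obtain ⟨r, hr, hrx⟩ := hj x hx
    have : e x = r := by rw [show e x = Function.invFun iA (j x) from rfl, ← hrx,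
      Function.leftInverse_invFun hiA r]
    exact ⟨this ▸ hr, this ▸ hrx⟩
  refine ⟨θK.restrictNormal' L, e, ⟨fun x hx => (he x hx).1, fun x hx y hy h => ?_, ?_⟩,
    fun x hx => ?_⟩
  · refine j.toRingHom.injective (show j x = j y from ?_)
    rw [← (he x hx).2, ← (he y hy).2, h]
  · intro r hr
    have hmem : iA r ∈ j '' p.rootSet L := by
      rw [(SplittingField.splits p).image_rootSet j, rootSet_def, Finset.mem_coe,
        Multiset.mem_toFinset, aroots_def, hroots]
      exact Finset.mem_image_of_mem _ hr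
    obtain ⟨x, hx, hjx⟩ := hmem
    exact ⟨x, hx, hiA ((he x hx).2.trans hjx)⟩
  · have hmem : (θK.restrictNormal' L) x ∈ p.rootSet L :=
      p.rootSet_mapsTo ((θK.restrictNormal' L : L ≃ₐ[RatFunc ℚ] L) : L →ₐ[RatFunc ℚ] L) hx
    apply hiA
    rw [(he _ hmem).2, ← hθ, (he x hx).2]
    exact AlgHom.restrictNormal_commutes θK L x

/-- The Galois group acting on the roots in the splitting field. -/
noncomputable def rootPerm (n : ℕ) :
    AutL n →*
      Equiv.Perm ((trinomialK n).rootSet (trinomialK n).SplittingField) where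
  toFun σ :=
    { toFun := fun x => ⟨σ x, (trinomialK n).rootSet_mapsTo σ.toAlgHom x.2⟩
      invFun := fun x => ⟨σ.symm x, (trinomialK n).rootSet_mapsTo σ.symm.toAlgHom x.2⟩
      left_inv := fun x => Subtype.ext (σ.symm_apply_apply _)
      right_inv := fun x => Subtype.ext (σ.apply_symm_apply _) }
  map_one' := by ext x; rfl
  map_mul' σ τ := by ext x; rfl

@[simp] lemma rootPerm_apply (n : ℕ) (σ : AutL n)
    (x : (trinomialK n).rootSet (trinomialK n).SplittingField) :
    ((rootPerm n σ x : _) : (trinomialK n).SplittingField) = σ x := rfl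

lemma rootPerm_injective (n : ℕ) : Function.Injective (rootPerm n) := by
  intro σ τ h
  refine AlgEquiv.coe_toAlgHom_injective
    (AlgHom.ext_of_adjoin_eq_top (SplittingField.adjoin_rootSet _) fun x hx => ?_)
  exact congrArg Subtype.val (Equiv.congr_fun h ⟨x, hx⟩)

lemma card_rootSet_trinomialK {n : ℕ} (hn : 2 ≤ n) :
    Fintype.card ((trinomialK n).rootSet (trinomialK n).SplittingField) = n := by
  rw [card_rootSet_eq_natDegree (separable_trinomialK hn) (SplittingField.splits _),
    natDegree_trinomialK hn]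

lemma rootPerm_transitive {n : ℕ} (hn : 2 ≤ n)
    (x y : (trinomialK n).rootSet (trinomialK n).SplittingField) :
    ∃ σ : AutL n, rootPerm n σ x = y := by
  have hirr := irreducible_trinomialK hn
  have : Normal (RatFunc ℚ) (trinomialK n).SplittingField :=
    Normal.of_isSplittingField (trinomialK n)
  have hx := (mem_rootSet.1 x.2).2
  have hy := (mem_rootSet.1 y.2).2
  have hmin : aeval (y : (trinomialK n).SplittingField) 
      (minpoly (RatFunc ℚ) (x : (trinomialK n).SplittingField)) = 0 := by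
    rw [← minpoly.eq_of_irreducible hirr hx, map_mul, hy, zero_mul]
  obtain ⟨σ, hσ⟩ :=
    minpoly.exists_algEquiv_of_root' ⟨trinomialK n, hirr.ne_zero, hx⟩ hmin
  exact ⟨σ, Subtype.ext hσ⟩

lemma exists_fixed_cycle {n : ℕ} (hn : 2 ≤ n) :
    ∃ (σ : AutL n) (z : (trinomialK n).rootSet (trinomialK n).SplittingField),
      rootPerm n σ z = z ∧ ∀ b c, b ≠ z → c ≠ z → ∃ k : ℕ, (rootPerm n σ ^ k) b = c := by
  obtain ⟨ζ, hζ, hfix, R, hR, hroot, a, haR, ha, hcyc⟩ := exists_cycle_roots hn
  have ht : ∀ c : ℂ, (n : ℂ⟦X⟧) * PowerSeries.X ^ (n - 1) ≠ PowerSeries.C c := by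
    intro c h
    have h' := congrArg (PowerSeries.coeff (n - 1)) h
    rw [← map_natCast PowerSeries.C, PowerSeries.coeff_C_mul_X_pow, if_pos rfl,
      PowerSeries.coeff_C, if_neg (by omega), Nat.cast_eq_zero] at h'
    omega
  obtain ⟨σ, e, he, hσ⟩ := exists_gal_of_powerSeries hn ht hζ hfix R hR hroot
  obtain ⟨z, hz, hza⟩ := he.surjOn haR
  have hiter : ∀ (k : ℕ) (b : (trinomialK n).rootSet (trinomialK n).SplittingField),
      e ((rootPerm n σ ^ k) b) = (PowerSeries.rescale ζ)^[k] (e b) := by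
    intro k b
    induction k with
    | zero => rfl
    | succ k ih =>
      rw [pow_succ', Equiv.Perm.mul_apply, rootPerm_apply,
        hσ _ ((rootPerm n σ ^ k) b).2, ih, Function.iterate_succ_apply']
  refine ⟨σ, ⟨z, hz⟩, Subtype.ext (he.injOn ((rootPerm n σ) ⟨z, hz⟩).2 hz ?_), fun b c hb hc => ?_⟩
  · rw [rootPerm_apply, hσ z hz, hza, ha]
  · have hne : ∀ d : (trinomialK n).rootSet (trinomialK n).SplittingField, d ≠ ⟨z, hz⟩ →
        e d ≠ a := fun d hd h => hd (Subtype.ext (he.injOn d.2 hz (h.trans hza.symm)))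
    obtain ⟨k, hk⟩ := hcyc _ (he.mapsTo b.2) (hne b hb) _ (he.mapsTo c.2) (hne c hc)
    exact ⟨k, Subtype.ext (he.injOn ((rootPerm n σ ^ k) b).2 c.2 ((hiter k b).trans hk))⟩

lemma exists_transposition {n : ℕ} (hn : 2 ≤ n)
    [DecidableEq ((trinomialK n).rootSet (trinomialK n).SplittingField)] :
    ∃ (σ : AutL n) (x y : (trinomialK n).rootSet (trinomialK n).SplittingField),
      x ≠ y ∧ rootPerm n σ = Equiv.swap x y := by
  obtain ⟨R, hR, hroot, u, hu, v, hv, huv, huv', hvu', hfix⟩ := exists_swap_roots hn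
  have ht : ∀ c : ℂ, (1 + PowerSeries.X ^ 2 : ℂ⟦X⟧) ≠ PowerSeries.C c := by
    intro c h
    have h' := congrArg (PowerSeries.coeff 2) h
    rw [map_add, PowerSeries.coeff_one, if_neg two_ne_zero, zero_add, PowerSeries.coeff_X_pow,
      if_pos rfl, PowerSeries.coeff_C, if_neg two_ne_zero] at h'
    exact one_ne_zero h'
  have hfix2 : PowerSeries.rescale (-1 : ℂ) (1 + PowerSeries.X ^ 2) = 1 + PowerSeries.X ^ 2 := by
    rw [map_add, map_one, map_pow, PowerSeries.rescale_X]
    simp
  obtain ⟨σ, e, he, hσ⟩ :=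
    exists_gal_of_powerSeries hn ht (neg_ne_zero.2 one_ne_zero) hfix2 R hR hroot
  obtain ⟨x, hx, hxu⟩ := he.surjOn hu
  obtain ⟨y, hy, hyv⟩ := he.surjOn hv
  have hxy : (⟨x, hx⟩ : (trinomialK n).rootSet _) ≠ ⟨y, hy⟩ := fun h =>
    huv (by rw [← hxu, ← hyv, show x = y from congrArg Subtype.val h])
  refine ⟨σ, ⟨x, hx⟩, ⟨y, hy⟩, hxy, Equiv.ext fun b => Subtype.ext (he.injOn (rootPerm n σ b).2
    (Equiv.swap _ _ b).2 ?_)⟩
  rw [rootPerm_apply, hσ b b.2]
  by_cases hbx : b = ⟨x, hx⟩
  · subst hbx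
    rw [Equiv.swap_apply_left, hxu, huv', hyv]
  by_cases hby : b = ⟨y, hy⟩
  · subst hby
    rw [Equiv.swap_apply_right, hyv, hvu', hxu]
  rw [Equiv.swap_apply_of_ne_of_ne hbx hby]
  exact hfix _ (he.mapsTo b.2)
    (fun h => hbx (Subtype.ext (he.injOn b.2 hx (h.trans hxu.symm))))
    (fun h => hby (Subtype.ext (he.injOn b.2 hy (h.trans hyv.symm))))

/-- The Galois group of the trinomial over `ℚ(T)` is the whole symmetric group of the roots. -/
theorem rootPerm_bijective {n : ℕ} (hn : 2 ≤ n) : Function.Bijective (rootPerm n) := by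
  classical
  refine ⟨rootPerm_injective n, MonoidHom.range_eq_top.1 ?_⟩
  obtain ⟨σ, z, hz, hcyc⟩ := exists_fixed_cycle hn
  obtain ⟨τ, u, v, huv, hτ⟩ := exists_transposition hn
  rw [eq_top_iff, ← Equiv.Perm.closure_isSwap, Subgroup.closure_le]
  rintro _ ⟨a, b, hab, rfl⟩
  obtain ⟨g₁, hg₁⟩ := rootPerm_transitive hn u a
  obtain ⟨g₀, hg₀⟩ := rootPerm_transitive hn z a
  set g := rootPerm n g₀
  set w := rootPerm n g₁ v
  have hwa : w ≠ a := fun h => huv ((rootPerm n g₁).injective (hg₁.trans h.symm))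
  obtain ⟨k, hk⟩ := hcyc (g⁻¹ w) (g⁻¹ b)
    (fun h => hwa (by rw [← hg₀, ← h]; exact (Equiv.apply_symm_apply g w).symm))
    (fun h => hab (by rw [← hg₀, ← h]; exact Equiv.apply_symm_apply g b))
  have hfix : ∀ k : ℕ, (rootPerm n σ ^ k) z = z := fun k => by
    induction k with
    | zero => rfl
    | succ k ih => rw [pow_succ', Equiv.Perm.mul_apply, ih, hz]
  set γ := g * rootPerm n σ ^ k * g⁻¹
  have hγa : γ a = a := by
    simp only [γ, Equiv.Perm.mul_apply]
    rw [show g⁻¹ a = z from by rw [← hg₀]; exact Equiv.symm_apply_apply g z, hfix k]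
    exact hg₀
  have hγw : γ w = b := by
    simp only [γ, Equiv.Perm.mul_apply]
    rw [hk]
    exact Equiv.apply_symm_apply g b
  refine ⟨(g₀ * σ ^ k * g₀⁻¹ * g₁) * τ * (g₀ * σ ^ k * g₀⁻¹ * g₁)⁻¹, ?_⟩
  rw [map_mul, map_mul, map_inv, hτ, ← Equiv.swap_apply_apply]
  simp only [map_mul, map_pow, map_inv]
  congr 1
  · change γ (rootPerm n g₁ u) = a
    rw [hg₁, hγa]

/-- The Galois group of `(n - 1) X^n - n X^(n-1) + T` over `ℚ(T)` is `Sₙ`. -/
theorem nonempty_gal_trinomialK {n : ℕ} (hn : 2 ≤ n) :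
    Nonempty ((trinomialK n).Gal ≃* Equiv.Perm (Fin n)) :=
  ⟨show AutL n ≃* Equiv.Perm (Fin n) from
    (MulEquiv.ofBijective (rootPerm n) (rootPerm_bijective hn)).trans
      (Fintype.equivFinOfCardEq (card_rootSet_trinomialK hn)).permCongrHom⟩

/-- For `t` outside a set of density zero, `(n - 1) X^n - n X^(n-1) + t` is irreducible with
Galois group `Sₙ`. -/
theorem densityZero_not_symmetric {n : ℕ} (hn : 2 ≤ n) :
    DensityZero {t : ℤ | ¬ (Irreducible (paramTrinomial n (t : ℚ)) ∧
      Nonempty ((paramTrinomial n (t : ℚ)).Gal ≃* Equiv.Perm (Fin n)))} := by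
  obtain ⟨e⟩ := nonempty_gal_trinomialK hn
  have hirr := irreducible_trinomialK hn
  rw [← map_trinomial] at hirr
  have hsep := hirr.separable
  refine ((Hilbertian.densityZero_badSet hirr).union
    (Hilbertian.densityZero_galois hsep)).mono fun t ht => ?_
  by_contra hcon
  simp only [Set.mem_union, not_or, Hilbertian.badSet, Set.mem_ofPred_eq, not_not] at hcon
  obtain ⟨⟨-, h1⟩, -, -, ⟨e'⟩⟩ := hcon
  rw [map_trinomial, specialise_trinomial] at e'
  rw [specialise_trinomial] at h1
  exact ht ⟨h1, ⟨e'.symm.trans e⟩⟩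

end Fermat.Agent.InverseSymmetric
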