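import Mathlib
import Fermat.Agent.InverseSymmetric.Symmetric

/-!
# The alternating group as a Galois group over `ℚ(T)` and over `ℚ`

The discriminant of `(n - 1) X^n - n X^(n-1) + T` is a constant times `T^(n-2) (T - 1)`, so the
fixed field of `Aₙ` is `ℚ(u)` with `u² = c (T - 1)` or `u² = c (T - 1) / T`, a field of rational
functions.
-/

namespace Fermat.Agent.InverseSymmetric

open Polynomial
open scoped Polynomial IntermediateField
open Fermat.Agent.Hilbertian (specialise DensityZero)

/-- Specialisation for a splitting field over a field isomorphic to `ℚ(T)`. -/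
theorem exists_family_of_ringEquiv {F L : Type} [Field F] [Field L] [Algebra F L]
    (e : RatFunc ℚ ≃+* F) (q : F[X]) (hq : Irreducible q) [IsSplittingField F L q] :
    ∃ f : ℚ[X][X], DensityZero {t : ℤ | ¬ (Irreducible (specialise f (t : ℚ)) ∧
      (specialise f (t : ℚ)).natDegree = q.natDegree ∧
      Nonempty ((specialise f (t : ℚ)).Gal ≃* (L ≃ₐ[F] L)))} := by
  let _ : Algebra (RatFunc ℚ) L :=
    ((algebraMap F L).comp (e : RatFunc ℚ →+* F)).toAlgebra
  have halg : ∀ a, algebraMap (RatFunc ℚ) L a = algebraMap F L (e a) := fun _ => rfl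
  set q' := q.map (e.symm : F →+* RatFunc ℚ) with hq'
  obtain ⟨b, hb, hbq⟩ := IsLocalization.integerNormalization_spec (nonZeroDivisors ℚ[X]) q'
  set f := IsLocalization.integerNormalization (nonZeroDivisors ℚ[X]) q'
  have hb0 : algebraMap ℚ[X] (RatFunc ℚ) b ≠ 0 :=
    (map_ne_zero_iff _ (IsFractionRing.injective ℚ[X] (RatFunc ℚ))).2 (nonZeroDivisors.ne_zero hb)
  set fK := f.map (algebraMap ℚ[X] (RatFunc ℚ))
  have hfK : fK = C (algebraMap ℚ[X] (RatFunc ℚ) b) * q' := by
    rw [hbq, Algebra.smul_def, Polynomial.algebraMap_apply]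
  have hu : IsUnit (C (algebraMap ℚ[X] (RatFunc ℚ) b)) := isUnit_C.2 hb0.isUnit
  have hirr' : Irreducible q' :=
    (MulEquiv.irreducible_iff (mapEquiv e.symm : F[X] ≃* (RatFunc ℚ)[X])).2 hq
  have hirr : Irreducible fK := by rw [hfK, irreducible_isUnit_mul hu]; exact hirr'
  have hdeg : f.natDegree = q.natDegree := by
    rw [← natDegree_map_eq_of_injective (IsFractionRing.injective ℚ[X] (RatFunc ℚ)) f,
      show f.map _ = fK from rfl, hfK, natDegree_C_mul hb0, hq',
      natDegree_map_eq_of_injective e.symm.injective]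
  have hmapq : q'.map (algebraMap (RatFunc ℚ) L) = q.map (algebraMap F L) := by
    rw [hq', Polynomial.map_map]
    congr 1
    exact RingHom.ext fun a => by simp [halg]
  have hsplit : IsSplittingField (RatFunc ℚ) L fK := by
    refine ⟨?_, ?_⟩
    · rw [hfK, Polynomial.map_mul, map_C, hmapq]
      exact (Splits.C _).mul (IsSplittingField.splits L q)
    · rw [eq_top_iff]
      rintro x -
      have hx : x ∈ Algebra.adjoin F (q.rootSet L) :=
        (IsSplittingField.adjoin_rootSet L q).symm ▸ Algebra.mem_top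
      have hroots : fK.rootSet L = q.rootSet L := by
        classical
        rw [hfK, rootSet, rootSet, aroots_C_mul _ hb0, aroots_def, aroots_def, hmapq]
      rw [hroots]
      induction hx using Algebra.adjoin_induction with
      | mem y hy => exact Algebra.subset_adjoin hy
      | algebraMap a =>
        have ha := Subalgebra.algebraMap_mem (Algebra.adjoin (RatFunc ℚ) (q.rootSet L)) (e.symm a)
        rwa [halg, RingEquiv.apply_symm_apply] at ha
      | add y z _ _ hy hz => exact add_mem hy hz
      | mul y z _ _ hy hz => exact mul_mem hy hz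
  have hbase : ∀ (σ : L ≃ₐ[RatFunc ℚ] L) (a : F), σ (algebraMap F L a) = algebraMap F L a :=
    fun σ a => by rw [← e.apply_symm_apply a, ← halg, σ.commutes]
  let eAut : (L ≃ₐ[RatFunc ℚ] L) ≃* (L ≃ₐ[F] L) :=
    { toFun := fun σ => AlgEquiv.ofRingEquiv (f := σ.toRingEquiv) (hbase σ)
      invFun := fun σ => AlgEquiv.ofRingEquiv (f := σ.toRingEquiv)
        fun a => by rw [halg]; exact σ.commutes (e a)
      left_inv := fun σ => AlgEquiv.ext fun x => rfl
      right_inv := fun σ => AlgEquiv.ext fun x => rfl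
      map_mul' := fun σ τ => AlgEquiv.ext fun x => rfl }
  refine ⟨f, ((Hilbertian.densityZero_badSet hirr).union
    (Hilbertian.densityZero_galois hirr.separable)).mono fun t ht => ?_⟩
  by_contra hcon
  simp only [Set.mem_union, not_or, Hilbertian.badSet, Set.mem_ofPred_eq, not_not] at hcon
  obtain ⟨⟨h1, h2⟩, -, -, ⟨e'⟩⟩ := hcon
  exact ht ⟨h2, h1.trans hdeg, ⟨e'.symm.trans
    ((AlgEquiv.autCongr (IsSplittingField.algEquiv L fK)).symm.trans eAut)⟩⟩

/-- The splitting field of the trinomial over `ℚ(T)`. -/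
abbrev SF (n : ℕ) : Type := (trinomialK n).SplittingField

/-- A sign-changing element `u` with `ℚ(u)` containing `T` cuts out the alternating group. -/
theorem exists_family_of_signElement {n : ℕ} (hn : 3 ≤ n)
    (φ : AutL n ≃* Equiv.Perm (Fin n)) (r : Fin n → (SF n))
    (hr : Function.Injective r) (hroot : ∀ i, aeval (r i) (trinomialK n) = 0)
    (hφ : ∀ σ i, σ (r i) = r (φ σ i)) (u : SF n) (hu : u ≠ 0)
    (hsign : ∀ σ, σ u = ((Equiv.Perm.sign (φ σ) : ℤ) : (SF n)) * u)
    (hgen : ∀ S : Subfield (SF n), u ∈ S →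
      algebraMap (RatFunc ℚ) (SF n) RatFunc.X ∈ S) :
    ∃ f : ℚ[X][X], DensityZero {t : ℤ | ¬ (Irreducible (specialise f (t : ℚ)) ∧
      (specialise f (t : ℚ)).natDegree = n ∧
      Nonempty ((specialise f (t : ℚ)).Gal ≃* alternatingGroup (Fin n)))} := by
  classical
  have : CharZero (SF n) :=
    charZero_of_injective_algebraMap (algebraMap (RatFunc ℚ) (SF n)).injective
  have : IsGalois (RatFunc ℚ) (SF n) :=
    IsGalois.of_separable_splitting_field (separable_trinomialK (by omega : 2 ≤ n))
  set F := (RatFunc ℚ)⟮u⟯ with hFdef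
  set T := algebraMap (RatFunc ℚ) (SF n) RatFunc.X with hT
  -- `u` is transcendental over `ℚ`
  have hinjL : Function.Injective
      ((algebraMap (RatFunc ℚ) (SF n)).comp (algebraMap ℚ[X] (RatFunc ℚ))) :=
    (algebraMap (RatFunc ℚ) (SF n)).injective.comp (IsFractionRing.injective _ _)
  have haevalT : ∀ p : ℚ[X], aeval T p
      = (algebraMap (RatFunc ℚ) (SF n)).comp (algebraMap ℚ[X] (RatFunc ℚ)) p := by
    intro p
    have h : (aeval T : ℚ[X] →ₐ[ℚ] (SF n)).toRingHom
        = (algebraMap (RatFunc ℚ) (SF n)).comp (algebraMap ℚ[X] (RatFunc ℚ)) :=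
      Polynomial.ringHom_ext (fun a => RingHom.congr_fun (Subsingleton.elim
        ((aeval T : ℚ[X] →ₐ[ℚ] (SF n)).toRingHom.comp C)
        (((algebraMap (RatFunc ℚ) (SF n)).comp (algebraMap ℚ[X] (RatFunc ℚ))).comp C)) a)
        (by simp [T, RatFunc.algebraMap_X])
    exact RingHom.congr_fun h p
  have hinju : Function.Injective (aeval u : ℚ[X] →ₐ[ℚ] (SF n)) := by
    rw [injective_iff_map_eq_zero]
    intro p hp
    by_contra hp0
    obtain ⟨p', hp'0, hp'⟩ := mem_algebraicClosure_iff.1
      (hgen (algebraicClosure ℚ (SF n)).toSubfield (mem_algebraicClosure_iff.2 ⟨p, hp0, hp⟩))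
    rw [haevalT] at hp'
    exact hp'0 (hinjL (by rw [hp', map_zero]))
  let ι : RatFunc ℚ →+* (SF n) :=
    IsFractionRing.lift (show Function.Injective (aeval u : ℚ[X] →ₐ[ℚ] (SF n)).toRingHom from hinju)
  have hιu : ι RatFunc.X = u := by
    rw [← RatFunc.algebraMap_X, IsFractionRing.lift_algebraMap]
    simp
  have hbase : ∀ a, algebraMap (RatFunc ℚ) (SF n) a ∈ ι.fieldRange := by
    intro a
    have hT' : T ∈ ι.fieldRange := hgen _ ⟨_, hιu⟩
    have hp : ∀ p : ℚ[X],
        algebraMap (RatFunc ℚ) (SF n) (algebraMap ℚ[X] (RatFunc ℚ) p) ∈ ι.fieldRange := by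
      intro p
      induction p using Polynomial.induction_on with
      | C c =>
        exact ⟨algebraMap ℚ[X] (RatFunc ℚ) (C c), RingHom.congr_fun
          (Subsingleton.elim ((ι.comp (algebraMap ℚ[X] (RatFunc ℚ))).comp C)
            (((algebraMap (RatFunc ℚ) (SF n)).comp (algebraMap ℚ[X] (RatFunc ℚ))).comp C)) c⟩
      | add p q hp hq => rw [map_add, map_add]; exact add_mem hp hq
      | monomial k c h =>
        rw [pow_succ, ← mul_assoc, map_mul, map_mul, RatFunc.algebraMap_X]
        exact mul_mem h hT'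
    obtain ⟨p, q, -, rfl⟩ := IsFractionRing.div_surjective (A := ℚ[X]) a
    rw [map_div₀]
    exact div_mem (hp p) (hp q)
  have hιF : ∀ a, ι a ∈ F := by
    intro a
    have hp : ∀ p : ℚ[X], ι (algebraMap ℚ[X] (RatFunc ℚ) p) ∈ F := by
      intro p
      induction p using Polynomial.induction_on with
      | C c =>
        rw [show ι (algebraMap ℚ[X] (RatFunc ℚ) (C c))
          = algebraMap (RatFunc ℚ) (SF n) (algebraMap ℚ[X] (RatFunc ℚ) (C c)) from RingHom.congr_fun
          (Subsingleton.elim ((ι.comp (algebraMap ℚ[X] (RatFunc ℚ))).comp C)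
            (((algebraMap (RatFunc ℚ) (SF n)).comp (algebraMap ℚ[X] (RatFunc ℚ))).comp C)) c]
        exact F.algebraMap_mem _
      | add p q hp hq => rw [map_add, map_add]; exact add_mem hp hq
      | monomial k c h =>
        rw [pow_succ, ← mul_assoc, map_mul, map_mul, RatFunc.algebraMap_X, hιu]
        exact mul_mem h (IntermediateField.mem_adjoin_simple_self _ u)
    obtain ⟨p, q, -, rfl⟩ := IsFractionRing.div_surjective (A := ℚ[X]) a
    rw [map_div₀]
    exact div_mem (hp p) (hp q)
  have hsurj : ∀ x ∈ F, x ∈ ι.fieldRange := fun x hx =>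
    (IntermediateField.adjoin_le_iff (T := ι.fieldRange.toIntermediateField hbase)).2
      (by rintro _ rfl; exact ⟨_, hιu⟩) hx
  let e : RatFunc ℚ ≃+* F := RingEquiv.ofBijective
    (ι.codRestrict F.toSubfield hιF)
    ⟨fun a b h => ι.injective (congrArg Subtype.val h), fun x => by
      obtain ⟨a, ha⟩ := hsurj x x.2
      exact ⟨a, Subtype.ext ha⟩⟩
  -- the group
  have hmem : ∀ σ : AutL n, σ ∈ F.fixingSubgroup ↔ φ σ ∈ alternatingGroup (Fin n) := by
    intro σ
    rw [IntermediateField.mem_fixingSubgroup_iff, Equiv.Perm.mem_alternatingGroup]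
    constructor
    · intro h
      have h' := h u (IntermediateField.mem_adjoin_simple_self _ u)
      rw [hsign] at h'
      rcases Int.units_eq_one_or (Equiv.Perm.sign (φ σ)) with h1 | h1
      · exact h1
      · rw [h1] at h'
        push_cast at h'
        exact absurd (by linear_combination (-h') / 2 : u = 0) hu
    · intro h x hx
      have hle : F ≤ IntermediateField.fixedField (Subgroup.zpowers σ) :=
        IntermediateField.adjoin_simple_le_iff.2 fun g => by
          obtain ⟨k, hk⟩ := g.2
          have hσu : σ u = u := by rw [hsign, h]; simp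
          have : ∀ k : ℤ, (σ ^ k) u = u := fun k => by
            induction k with
            | zero => rfl
            | succ k ih => rw [zpow_add_one, AlgEquiv.mul_apply, hσu, ih]
            | pred k ih =>
              rw [zpow_sub_one, AlgEquiv.mul_apply]
              nth_rw 1 [← hσu]
              rw [AlgEquiv.aut_inv, AlgEquiv.symm_apply_apply, ih]
          show (g : AutL n) u = u
          rw [← hk]
          exact this k
      exact hle hx ⟨σ, Subgroup.mem_zpowers σ⟩
  have hmap : F.fixingSubgroup.map φ.toMonoidHom = alternatingGroup (Fin n) := by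
    ext π
    constructor
    · rintro ⟨σ, hσ, rfl⟩
      exact (hmem σ).1 hσ
    · intro hπ
      exact ⟨φ.symm π, (hmem _).2 (by rwa [φ.apply_symm_apply]), φ.apply_symm_apply π⟩
  let eG : ((SF n) ≃ₐ[F] (SF n)) ≃* alternatingGroup (Fin n) :=
    (F.fixingSubgroupEquiv.symm.trans (φ.subgroupMap F.fixingSubgroup)).trans
      (MulEquiv.subgroupCongr hmap)
  -- the polynomial over `F`
  set q := (trinomialK n).map (algebraMap (RatFunc ℚ) F)
  have hqdeg : q.natDegree = n := by
    rw [natDegree_map, natDegree_trinomialK (by omega)]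
  have hqroot : ∀ i, aeval (r i) q = 0 := fun i => by rw [aeval_map_algebraMap]; exact hroot i
  have hq0 : q ≠ 0 := fun h => by rw [h, natDegree_zero] at hqdeg; omega
  let i₀ : Fin n := ⟨0, by omega⟩
  have hint : IsIntegral F (r i₀) := IsIntegral.of_finite F (r i₀)
  have hmin : ∀ j, aeval (r j) (minpoly F (r i₀)) = 0 := by
    intro j
    by_cases hj : j = i₀
    · rw [hj, minpoly.aeval]
    obtain ⟨k, hk1, hk2⟩ : ∃ k : Fin n, k ≠ i₀ ∧ k ≠ j := by
      obtain ⟨k, hk⟩ := Finset.exists_mem_notMem_of_card_lt_card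
        (s := ({i₀, j} : Finset (Fin n))) (t := Finset.univ)
        (lt_of_le_of_lt Finset.card_le_two (by rw [Finset.card_univ, Fintype.card_fin]; omega))
      exact ⟨k, fun h => hk.2 (by simp [h]), fun h => hk.2 (by simp [h])⟩
    set π := Equiv.swap i₀ k * Equiv.swap i₀ j
    have hπ : π ∈ alternatingGroup (Fin n) := by
      rw [Equiv.Perm.mem_alternatingGroup, map_mul, Equiv.Perm.sign_swap (Ne.symm hk1),
        Equiv.Perm.sign_swap (Ne.symm hj)]
      rfl
    have hπi : π i₀ = j := by
      rw [Equiv.Perm.mul_apply, Equiv.swap_apply_left,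
        Equiv.swap_apply_of_ne_of_ne hj (Ne.symm hk2)]
    set σ := F.fixingSubgroupEquiv ⟨φ.symm π, (hmem _).2 (by rwa [φ.apply_symm_apply])⟩
    have hσ : σ (r i₀) = r j := by
      show (φ.symm π) (r i₀) = r j
      rw [hφ, φ.apply_symm_apply, hπi]
    rw [← hσ, ← AlgEquiv.coe_toAlgHom, aeval_algHom_apply, minpoly.aeval, map_zero]
  have hq : Irreducible q := by
    refine (associated_of_dvd_of_natDegree_le (minpoly.dvd F (r i₀) (hqroot i₀)) hq0 ?_).irreducible
      (minpoly.irreducible hint)
    rw [hqdeg]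
    have h : (Finset.univ.image r).card ≤
        ((minpoly F (r i₀)).map (algebraMap F (SF n))).natDegree :=
      card_le_degree_of_subset_roots fun x hx => by
        obtain ⟨j, -, rfl⟩ := Finset.mem_image.1 (show x ∈ Finset.univ.image r from hx)
        refine (mem_roots (map_monic_ne_zero (minpoly.monic hint))).2 ?_
        rw [IsRoot, eval_map_algebraMap]
        exact hmin j
    rwa [Finset.card_image_of_injective _ hr, Finset.card_univ, Fintype.card_fin,
      natDegree_map] at h
  have : IsSplittingField F (SF n) q := IsSplittingField.map (F := RatFunc ℚ) (f := trinomialK n) ..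
  obtain ⟨f, hf⟩ := exists_family_of_ringEquiv (L := SF n) e q hq
  refine ⟨f, hf.mono fun t ht hcon => ht ?_⟩
  exact ⟨hcon.1, hcon.2.1.trans hqdeg, hcon.2.2.map fun E => E.trans eG⟩

lemma exists_signElement {n : ℕ} (hn : 3 ≤ n) (φ : AutL n ≃* Equiv.Perm (Fin n))
    (r : Fin n → (SF n)) (hr : Function.Injective r)
    (hroot : ∀ i, aeval (r i) (trinomialK n) = 0) (hφ : ∀ σ i, σ (r i) = r (φ σ i)) :
    ∃ u : (SF n), u ≠ 0 ∧
      (∀ σ, σ u = ((Equiv.Perm.sign (φ σ) : ℤ) : (SF n)) * u) ∧
      ∀ S : Subfield (SF n), u ∈ S →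
        algebraMap (RatFunc ℚ) (SF n) RatFunc.X ∈ S := by
  classical
  have : CharZero (SF n) :=
    charZero_of_injective_algebraMap (algebraMap (RatFunc ℚ) (SF n)).injective
  set T := algebraMap (RatFunc ℚ) (SF n) RatFunc.X with hTdef
  have hn1 : (n : SF n) - 1 ≠ 0 := sub_ne_zero.2 (by exact_mod_cast (show n ≠ 1 by omega))
  -- factorisation
  have hmap : (trinomialK n).map (algebraMap (RatFunc ℚ) (SF n)) = paramTrinomial n T :=
    map_paramTrinomial _ _ _
  have hdeg : (paramTrinomial n T).natDegree = n := natDegree_paramTrinomial (by omega) T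
  have hlead : (paramTrinomial n T).leadingCoeff = (n : SF n) - 1 := by
    rw [leadingCoeff, hdeg, paramTrinomial, baseTrinomial, coeff_add, coeff_map, coeff_sub,
      coeff_C_mul_X_pow, coeff_C_mul_X_pow, if_pos rfl, if_neg (by omega), coeff_C,
      if_neg (by omega)]
    simp
  have hfac : paramTrinomial n T = C ((n : SF n) - 1) * ∏ i, (X - C (r i)) := by
    have hp0 : paramTrinomial n T ≠ 0 := fun h => by rw [h, natDegree_zero] at hdeg; omega
    have hroots : (paramTrinomial n T).roots = Finset.univ.val.map r := by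
      refine (Multiset.eq_of_le_of_card_le
        ((Multiset.le_iff_subset (Finset.univ.nodup.map hr)).2 ?_) ?_).symm
      · intro x hx
        obtain ⟨i, -, rfl⟩ := Multiset.mem_map.1 hx
        refine (mem_roots hp0).2 ?_
        rw [IsRoot, ← hmap, eval_map_algebraMap]
        exact hroot i
      · refine (card_roots' _).trans ?_
        simp [hdeg]
    have hsplit : (paramTrinomial n T).Splits := hmap ▸ SplittingField.splits (trinomialK n)
    conv_lhs => rw [hsplit.eq_prod_roots, hlead, hroots, Multiset.map_map]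
    rfl
  -- values of the derivative
  have hder : ∀ i, ∏ j ∈ Finset.univ.erase i, (r i - r j)
      = (n : SF n) * r i ^ (n - 2) * (r i - 1) := by
    intro i
    have h := congrArg (fun p => (derivative p).eval (r i)) hfac
    simp only [paramTrinomial, derivative_add, derivative_map, derivative_C, add_zero,
      baseTrinomial_derivative (show 2 ≤ n by omega), derivative_mul, zero_mul, zero_add,
      derivative_prod_finset, eval_mul, eval_C, eval_finsetSum] at h
    rw [Finset.sum_eq_single i (fun j _ hji => ?_) (fun hi => absurd (Finset.mem_univ i) hi)] at h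
    · simp only [derivative_sub, derivative_X, derivative_C, sub_zero, eval_one, mul_one,
        eval_prod, eval_sub, eval_X, eval_C, eval_map, eval₂_mul, eval₂_C, eval₂_X_pow, eval₂_sub,
        eval₂_X, eval₂_one] at h
      refine mul_left_cancel₀ hn1 (h.symm.trans ?_)
      simp only [map_mul, map_sub, map_natCast, map_one]
      ring
    · rw [eval_prod, Finset.prod_eq_zero (i := i)
        (Finset.mem_erase.2 ⟨Ne.symm hji, Finset.mem_univ i⟩) (by simp), zero_mul]
  have h0 : ((n : SF n) - 1) * ∏ i, (-r i) = T := by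
    have h := congrArg (eval (0 : (SF n))) hfac
    simp only [paramTrinomial, eval_add, eval_C, eval_mul, eval_prod, eval_sub, eval_X,
      zero_sub] at h
    rw [← h, eval_map]
    simp [baseTrinomial, zero_pow (show n ≠ 0 by omega), zero_pow (show n - 1 ≠ 0 by omega)]
  have h1 : ((n : SF n) - 1) * ∏ i, (1 - r i) = T - 1 := by
    have h := congrArg (eval (1 : (SF n))) hfac
    simp only [paramTrinomial, eval_add, eval_C, eval_mul, eval_prod, eval_sub, eval_X] at h
    rw [← h, eval_map]
    simp [baseTrinomial]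
    ring
  -- the square of the Vandermonde determinant
  set δ := (Matrix.vandermonde r).det with hδ
  set ε : (SF n) := ∏ i : Fin n, ∏ _j ∈ Finset.Ioi i, (-1 : (SF n)) with hεdef
  have hsq : ε * δ ^ 2 = ∏ i, ∏ j ∈ Finset.univ.erase i, (r i - r j) := by
    have h := Finset.prod_prod_Ioi_mul_eq_prod_prod_off_diag fun a b : Fin n => r b - r a
    simp only [Finset.compl_eq_univ_sdiff, Finset.sdiff_singleton_eq_erase] at h
    rw [← h, hδ, Matrix.det_vandermonde, hεdef, sq, ← Finset.prod_mul_distrib,
      ← Finset.prod_mul_distrib]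
    refine Finset.prod_congr rfl fun i _ => ?_
    rw [← Finset.prod_mul_distrib, ← Finset.prod_mul_distrib]
    exact Finset.prod_congr rfl fun j _ => by ring
  have hε : ε * ε = 1 := by
    rw [hεdef, ← Finset.prod_mul_distrib]
    refine Finset.prod_eq_one fun i _ => ?_
    rw [← Finset.prod_mul_distrib]
    exact Finset.prod_eq_one fun j _ => by norm_num
  set c : ℚ := (∏ i : Fin n, ∏ _j ∈ Finset.Ioi i, (-1 : ℚ)) * (n : ℚ) ^ n *
    ((-1) ^ n / ((n : ℚ) - 1)) ^ (n - 2) * ((-1) ^ n / ((n : ℚ) - 1)) with hc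
  have hn1Q : (n : ℚ) - 1 ≠ 0 := sub_ne_zero.2 (by exact_mod_cast (show n ≠ 1 by omega))
  have hc0 : c ≠ 0 := by
    refine mul_ne_zero (mul_ne_zero (mul_ne_zero ?_ (pow_ne_zero _
      (Nat.cast_ne_zero.2 (by omega)))) (pow_ne_zero _ ?_)) ?_
    · exact Finset.prod_ne_zero_iff.2 fun i _ => Finset.prod_ne_zero_iff.2 fun j _ => by norm_num
    all_goals exact div_ne_zero (pow_ne_zero _ (by norm_num)) hn1Q
  have hδsq : δ ^ 2 = (c : SF n) * T ^ (n - 2) * (T - 1) := by
    have hP : ∏ i, r i = (-1) ^ n / ((n : SF n) - 1) * T := by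
      rw [← h0, Finset.prod_neg, Finset.card_univ, Fintype.card_fin]
      field_simp
      rw [← pow_mul, mul_comm n, pow_mul, neg_one_sq, one_pow, mul_one]
    have hQ : ∏ i, (r i - 1) = (-1) ^ n / ((n : SF n) - 1) * (T - 1) := by
      rw [← h1, ← Finset.prod_congr rfl fun i _ => neg_sub (1 : (SF n)) (r i), Finset.prod_neg,
        Finset.card_univ, Fintype.card_fin]
      field_simp
    rw [show δ ^ 2 = ε * (ε * δ ^ 2) by rw [← mul_assoc, hε, one_mul], hsq,
      Finset.prod_congr rfl fun i _ => hder i, Finset.prod_mul_distrib, Finset.prod_mul_distrib,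
      Finset.prod_const, Finset.card_univ, Fintype.card_fin, Finset.prod_pow, hP, hQ, hc, hεdef]
    push_cast
    ring
  have hδ0 : δ ≠ 0 := by
    rw [hδ, Matrix.det_vandermonde_ne_zero_iff]
    exact hr
  have hT0 : T ≠ 0 :=
    (map_ne_zero_iff _ (algebraMap (RatFunc ℚ) (SF n)).injective).2 RatFunc.X_ne_zero
  have hcL : (c : SF n) ≠ 0 := Rat.cast_ne_zero.2 hc0
  have hδσ : ∀ σ : AutL n, σ δ = ((Equiv.Perm.sign (φ σ) : ℤ) : (SF n)) * δ := by
    intro σ
    rw [hδ, AlgEquiv.map_det, ← Matrix.det_permute (φ σ) (Matrix.vandermonde r)]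
    congr 1
    ext i j
    simp [Matrix.vandermonde, hφ]
  have hTfix : ∀ σ : AutL n, σ T = T := fun σ => σ.commutes _
  rcases Nat.even_or_odd n with ⟨m, hm⟩ | ⟨m, hm⟩
  · refine ⟨δ / T ^ (m - 1), div_ne_zero hδ0 (pow_ne_zero _ hT0), fun σ => ?_, fun S hS => ?_⟩
    · rw [map_div₀, map_pow, hδσ, hTfix]
      ring
    · have hsq' : (δ / T ^ (m - 1)) ^ 2 = (c : SF n) * (T - 1) := by
        rw [div_pow, hδsq, ← pow_mul, show (m - 1) * 2 = n - 2 by omega]
        field_simp
      have : T = (δ / T ^ (m - 1)) ^ 2 / (c : SF n) + 1 := by rw [hsq']; field_simp; ring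
      rw [this]
      exact add_mem (div_mem (pow_mem hS 2) (SubfieldClass.ratCast_mem S c)) (one_mem S)
  · refine ⟨δ / T ^ m, div_ne_zero hδ0 (pow_ne_zero _ hT0), fun σ => ?_, fun S hS => ?_⟩
    · rw [map_div₀, map_pow, hδσ, hTfix]
      ring
    · have hpow : T ^ (m * 2) = T ^ (n - 2) * T := by
        rw [← pow_succ]
        congr 1
        omega
      have hsq' : (δ / T ^ m) ^ 2 = (c : SF n) * (T - 1) / T := by
        rw [div_pow, hδsq, ← pow_mul, hpow]
        field_simp
      have hsub : (c : SF n) - (δ / T ^ m) ^ 2 = c / T := by rw [hsq']; field_simp; ring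
      have : T = (c : SF n) / ((c : SF n) - (δ / T ^ m) ^ 2) := by rw [hsub]; field_simp
      rw [this]
      exact div_mem (SubfieldClass.ratCast_mem S c)
        (sub_mem (SubfieldClass.ratCast_mem S c) (pow_mem hS 2))

/-- For `n ≥ 3` there is a one-parameter family of degree `n` whose members have Galois group
`Aₙ` outside a set of density zero. -/
theorem exists_alternating_family {n : ℕ} (hn : 3 ≤ n) :
    ∃ f : ℚ[X][X], DensityZero {t : ℤ | ¬ (Irreducible (specialise f (t : ℚ)) ∧
      (specialise f (t : ℚ)).natDegree = n ∧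
      Nonempty ((specialise f (t : ℚ)).Gal ≃* alternatingGroup (Fin n)))} := by
  classical
  have hn2 : 2 ≤ n := by omega
  let ρ := (Fintype.equivFinOfCardEq (card_rootSet_trinomialK hn2)).symm
  let φ : AutL n ≃* Equiv.Perm (Fin n) :=
    (MulEquiv.ofBijective (rootPerm n) (rootPerm_bijective hn2)).trans ρ.symm.permCongrHom
  let r : Fin n → (SF n) := fun i => ρ i
  have hr : Function.Injective r := Subtype.val_injective.comp ρ.injective
  have hroot : ∀ i, aeval (r i) (trinomialK n) = 0 := fun i => (mem_rootSet.1 (ρ i).2).2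
  have hφ : ∀ σ i, σ (r i) = r (φ σ i) := fun σ i => by simp [r, φ]
  obtain ⟨u, hu, hsign, hgen⟩ := exists_signElement hn φ r hr hroot hφ
  exact exists_family_of_signElement hn φ r hr hroot hφ u hu hsign hgen

end Fermat.Agent.InverseSymmetric
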