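import Mathlib
import Fermat.Agent.InverseSymmetric.Alternating

/-!
# `Sₙ` and `Aₙ` over `ℚ`, and every finite group over some number field
-/

namespace Fermat.Agent.InverseSymmetric

open Polynomial
open scoped Polynomial
open Fermat.Agent.Hilbertian (specialise DensityZero)

/-- A polynomial with trivial Galois group. -/
lemma nonempty_gal_X (G : Type*) [Group G] [Subsingleton G] : Nonempty ((X : ℚ[X]).Gal ≃* G) :=
  ⟨{ toFun := fun _ => 1
     invFun := fun _ => 1
     left_inv := fun _ => Subsingleton.elim _ _
     right_inv := fun _ => Subsingleton.elim _ _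
     map_mul' := fun _ _ => (mul_one 1).symm }⟩

/-- `(n - 1) X^n - n X^(n-1) + t` has group `Sₙ` for infinitely many natural numbers `t`. -/
theorem infinite_symmetric {n : ℕ} (hn : 2 ≤ n) :
    {t : ℕ | Irreducible (paramTrinomial n (t : ℚ)) ∧
      Nonempty ((paramTrinomial n (t : ℚ)).Gal ≃* Equiv.Perm (Fin n))}.Infinite := by
  refine (densityZero_not_symmetric hn).infinite_nat.mono fun t ht => ?_
  have h := not_not.1 ht
  rwa [Int.cast_natCast] at h

/-- `Sₙ` is a Galois group over `ℚ` for every `n`. -/
theorem exists_gal_symmetric {n : ℕ} (hn : 1 ≤ n) :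
    ∃ f : ℚ[X], Irreducible f ∧ f.natDegree = n ∧ Nonempty (f.Gal ≃* Equiv.Perm (Fin n)) := by
  rcases hn.eq_or_lt with rfl | hn2
  · exact ⟨X, irreducible_X, natDegree_X, nonempty_gal_X _⟩
  · obtain ⟨t, hirr, hgal⟩ := (infinite_symmetric (n := n) hn2).nonempty
    exact ⟨_, hirr, natDegree_paramTrinomial hn2 _, hgal⟩

/-- `Aₙ` is a Galois group over `ℚ` of a degree `n` polynomial for every `n ≥ 3`. -/
theorem exists_gal_alternating {n : ℕ} (hn : 3 ≤ n) :
    ∃ f : ℚ[X], Irreducible f ∧ f.natDegree = n ∧
      Nonempty (f.Gal ≃* alternatingGroup (Fin n)) := by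
  obtain ⟨f, hf⟩ := exists_alternating_family hn
  obtain ⟨t, ht⟩ := hf.infinite_nat.nonempty
  obtain ⟨h1, h2, h3⟩ := not_not.1 ht
  exact ⟨_, h1, h2, h3⟩

/-- `Aₙ` is a Galois group over `ℚ` for every `n`. -/
theorem exists_gal_alternating' (n : ℕ) :
    ∃ f : ℚ[X], f.Separable ∧ Nonempty (f.Gal ≃* alternatingGroup (Fin n)) := by
  rcases Nat.lt_or_ge n 3 with hn | hn
  · have key : ∀ σ : Equiv.Perm (Fin n), σ ∈ alternatingGroup (Fin n) → σ = 1 := by
      simp only [Equiv.Perm.mem_alternatingGroup]
      interval_cases n <;> decide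
    have : Subsingleton (alternatingGroup (Fin n)) :=
      ⟨fun a b => Subtype.ext ((key a a.2).trans (key b b.2).symm)⟩
    exact ⟨X, separable_X, nonempty_gal_X _⟩
  · obtain ⟨f, h1, -, h3⟩ := exists_gal_alternating hn
    exact ⟨f, h1.separable, h3⟩

/-- Every finite group is the Galois group of an extension of number fields: of a splitting
field over one of its subfields. -/
theorem exists_gal_finite_group (G : Type*) [Group G] [Finite G] :
    ∃ (p : ℚ[X]) (E : IntermediateField ℚ p.SplittingField),
      FiniteDimensional ℚ p.SplittingField ∧ IsGalois E p.SplittingField ∧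
        Nonempty ((p.SplittingField ≃ₐ[E] p.SplittingField) ≃* G) := by
  have := Fintype.ofFinite G
  obtain ⟨p, hp, -, ⟨e⟩⟩ := exists_gal_symmetric (n := Fintype.card G) Fintype.card_pos
  let ι : G →* Equiv.Perm (Fin (Fintype.card G)) :=
    (Fintype.equivFin G).permCongrHom.toMonoidHom.comp (MulAction.toPermHom G G)
  have hι : Function.Injective ι :=
    (Fintype.equivFin G).permCongrHom.injective.comp MulAction.toPerm_injective
  let e' : (p.SplittingField ≃ₐ[ℚ] p.SplittingField) ≃* Equiv.Perm (Fin (Fintype.card G)) := e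
  have : IsSplittingField ℚ p.SplittingField p := by
    convert! IsSplittingField.splittingField p using 2
  have : IsGalois ℚ p.SplittingField := IsGalois.of_separable_splitting_field hp.separable
  set H : Subgroup (p.SplittingField ≃ₐ[ℚ] p.SplittingField) := ι.range.map e'.symm.toMonoidHom
  refine ⟨p, IntermediateField.fixedField H, inferInstance, inferInstance, ⟨?_⟩⟩
  exact ((IntermediateField.fixingSubgroupEquiv _).symm.trans
    (MulEquiv.subgroupCongr (IntermediateField.fixingSubgroup_fixedField H))).trans
    ((e'.symm.subgroupMap ι.range).symm.trans (MonoidHom.ofInjective hι).symm)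

end Fermat.Agent.InverseSymmetric
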